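/-
Generic Eichler–Shimura separation: for an arithmetic subgroup `𝒢` of `GL(2, ℝ)`, a cusp form of
weight `1 + m` (`m ≥ 1`) whose Eichler integral is invariant under the weight `1 - m` action of
`𝒢` vanishes.  This is the `𝒢`-generic twin of `S22_helper7.eq_zero_of_eichler_invariant`.
-/
import Fermat.Agent.S22_helper97.Main

set_option autoImplicit false

namespace Fermat.Agent.DS.ES

open UpperHalfPlane ModularForm Derivative ConjAct Matrix.SpecialLinearGroup
open scoped MatrixGroups ModularForm Manifold Pointwise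
open Fermat.Agent.S22_helper8 Fermat.Agent.S22_helper15 Fermat.Agent.S22_helper71

variable {𝒢 : Subgroup (GL (Fin 2) ℝ)} [𝒢.IsArithmetic]

theorem isBoundedAtImInfty_slash_of_eichler {m : ℕ} (f : CuspForm 𝒢 ((1 : ℤ) + m)) (E : ℍ → ℂ)
    (hE : MDiff E) (hD : D^[m] E = ⇑f) (hinv : ∀ γ ∈ 𝒢, E ∣[(1 : ℤ) - m] γ = E) (δ : SL(2, ℤ)) :
    IsBoundedAtImInfty (E ∣[(1 : ℤ) - m] δ) := by
  obtain ⟨M, hM, hper⟩ := Subgroup.IsArithmetic.exists_nat_mem_strictPeriods_conj 𝒢
  have hMpos : (0 : ℝ) < M := Nat.cast_pos.mpr hM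
  set g : GL (Fin 2) ℝ := mapGL ℝ δ with hg
  have hperδ : (M : ℝ) ∈ (toConjAct g⁻¹ • 𝒢).strictPeriods := by
    have := hper δ⁻¹
    rwa [map_inv] at this
  let f' := CuspForm.translate f g
  have hf'coe : (⇑f' : ℍ → ℂ) = ⇑f ∣[(1 : ℤ) + m] g := rfl
  have hf'per : Function.Periodic (⇑f' ∘ ofComplex) M :=
    SlashInvariantFormClass.periodic_comp_ofComplex f' hperδ
  have hcusp : IsCusp OnePoint.infty (toConjAct g⁻¹ • 𝒢) :=
    Subgroup.isCusp_of_mem_strictPeriods hMpos hperδ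
  have hf'zero : IsZeroAtImInfty (⇑f' : ℍ → ℂ) :=
    OnePoint.isZeroAt_infty_iff.mp (CuspFormClass.zero_at_cusps f' hcusp)
  let Es : SlashInvariantForm 𝒢 ((1 : ℤ) - m) := { toFun := E, slash_action_eq' := hinv }
  let Es' := SlashInvariantForm.translate Es g
  have hEper : Function.Periodic ((E ∣[(1 : ℤ) - m] g) ∘ ofComplex) M :=
    SlashInvariantFormClass.periodic_comp_ofComplex Es' hperδ
  obtain ⟨E', hE'md, hE'per, hE'zero, hE'D⟩ :=
    exists_iterated_antideriv m (φ := ⇑f') hMpos (CuspFormClass.holo f') hf'per hf'zero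
  have hdet1 : g.val.det = 1 := by
    rw [← Matrix.GeneralLinearGroup.val_det_apply]; simp [hg]
  have hdet : 0 < g.val.det := by rw [hdet1]; exact one_pos
  have hBol := bol m hE hdet
  have hdiff : D^[m] (E ∣[(1 : ℤ) - m] g - E') = 0 := by
    rw [iterate_D_sub m (hE.slash _ g) hE'md, hBol, hD, hE'D, hf'coe, hdet1]
    simp
  obtain ⟨P, -, hP⟩ := exists_poly_of_iterate_D_eq_zero m ((hE.slash _ g).sub hE'md) hdiff
  have hPper : Function.Periodic ((polyFun P) ∘ ofComplex) M := by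
    rw [← hP]
    intro w
    have h1 := hEper w
    have h2 := hE'per w
    simp only [Function.comp_apply, Pi.sub_apply, Complex.ofReal_natCast] at h1 h2 ⊢
    rw [h1, h2]
  obtain ⟨c, hc⟩ := exists_const_of_periodic_polyFun hMpos.ne' hPper
  have hEq : E ∣[(1 : ℤ) - m] g = E' + fun _ => c := by
    have : E ∣[(1 : ℤ) - m] g - E' = fun _ => c := by
      rw [hP, hc, polyFun_C]
    rw [← this]; abel
  rw [ModularForm.SL_slash]
  change IsBoundedAtImInfty (E ∣[(1 : ℤ) - m] g)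
  rw [hEq]
  exact hE'zero.isBoundedAtImInfty.add (Filter.const_boundedAtFilter _ c)

theorem exists_modularForm_of_eichler {m : ℕ} (f : CuspForm 𝒢 ((1 : ℤ) + m)) (E : ℍ → ℂ)
    (hE : MDiff E) (hD : D^[m] E = ⇑f) (hinv : ∀ γ ∈ 𝒢, E ∣[(1 : ℤ) - m] γ = E) {k : ℤ}
    (hk : k = (1 : ℤ) - m) : ∃ EM : ModularForm 𝒢 k, (⇑EM : ℍ → ℂ) = E := by
  subst hk
  refine ⟨{ toFun := E
            slash_action_eq' := hinv
            holo' := hE
            bdd_at_cusps' := fun {c} hc => ?_ }, rfl⟩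
  have hc' := (Subgroup.IsArithmetic.isCusp_iff_isCusp_SL2Z 𝒢).mp hc
  rw [OnePoint.isBoundedAt_iff_forall_SL2Z hc']
  intro δ _
  exact isBoundedAtImInfty_slash_of_eichler f E hE hD hinv δ

/-- **Separation**, generic level. -/
theorem eq_zero_of_eichler_invariant {m : ℕ} (hm : 1 ≤ m) (f : CuspForm 𝒢 ((1 : ℤ) + m))
    (E : ℍ → ℂ) (hE : MDiff E) (hzero : IsZeroAtImInfty E) (hD : D^[m] E = ⇑f)
    (hinv : ∀ γ ∈ 𝒢, E ∣[(1 : ℤ) - m] γ = E) : f = 0 := by
  have hE0 : E = 0 := by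
    rcases Nat.lt_or_ge 1 m with h1 | h1
    · obtain ⟨EM, hEM⟩ := exists_modularForm_of_eichler f E hE hD hinv (k := (1 : ℤ) - m) rfl
      have hneg : (1 : ℤ) - m < 0 := by omega
      rw [← hEM, ModularForm.isZero_of_neg_weight hneg EM]
      rfl
    · obtain ⟨EM, hEM⟩ := exists_modularForm_of_eichler f E hE hD hinv (k := 0) (by omega)
      obtain ⟨c, hc⟩ := ModularForm.eq_const_of_weight_zero EM
      rw [hEM] at hc
      have hc0 : c = 0 := by
        have h1 : Filter.Tendsto E atImInfty (nhds 0) := hzero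
        rw [hc] at h1
        exact (tendsto_nhds_unique h1 tendsto_const_nhds).symm ▸ rfl
      rw [hc, hc0]
      rfl
  have hf : (⇑f : ℍ → ℂ) = 0 := by rw [← hD, hE0, iterate_D_zero]
  exact DFunLike.coe_injective hf

end Fermat.Agent.DS.ES
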