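/-
Eichler integrals of a cusp form at ALL cusps (i.e. of all `SL(2, ℤ)`-translates), and the
resulting period cocycle over `SL(2, ℤ)` (Shapiro form of the Eichler–Shimura cocycle).
-/
import Fermat.Agent.DS.ES.Separation

set_option autoImplicit false

namespace Fermat.Agent.DS.ES

open UpperHalfPlane ModularForm Derivative ConjAct Matrix.SpecialLinearGroup Polynomial
open scoped MatrixGroups ModularForm Manifold Pointwise
open Fermat.Agent.S22_helper8 Fermat.Agent.S22_helper15 Fermat.Agent.S22_helper71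
open Fermat.Agent.S22_helper97

/-- Cusp forms of weight `1 + m` on a subgroup `Γ` of `SL(2, ℤ)`. -/
abbrev CFG (Γ : Subgroup SL(2, ℤ)) (m : ℕ) :=
  CuspForm (Γ : Subgroup (GL (Fin 2) ℝ)) ((1 : ℤ) + m)

variable {Γ : Subgroup SL(2, ℤ)} [Γ.FiniteIndex] {m : ℕ}

/-- The translate `f ∣ α` of a cusp form: holomorphic, periodic, vanishing at `i∞`. -/
theorem slash_facts (f : CFG Γ m) (α : SL(2, ℤ)) :
    ∃ M : ℕ, 0 < M ∧ MDiff ((⇑f : ℍ → ℂ) ∣[(1 : ℤ) + m] α) ∧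
      Function.Periodic (((⇑f : ℍ → ℂ) ∣[(1 : ℤ) + m] α) ∘ ofComplex) (M : ℝ) ∧
      IsZeroAtImInfty ((⇑f : ℍ → ℂ) ∣[(1 : ℤ) + m] α) := by
  obtain ⟨M, hM, hper⟩ :=
    Subgroup.IsArithmetic.exists_nat_mem_strictPeriods_conj (Γ : Subgroup (GL (Fin 2) ℝ))
  have hMpos : (0 : ℝ) < M := Nat.cast_pos.mpr hM
  set g : GL (Fin 2) ℝ := mapGL ℝ α with hg
  have hperδ : (M : ℝ) ∈ (toConjAct g⁻¹ • (Γ : Subgroup (GL (Fin 2) ℝ))).strictPeriods := by
    have := hper α⁻¹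
    rwa [map_inv] at this
  let f' := CuspForm.translate f g
  have hf'coe : (⇑f' : ℍ → ℂ) = ⇑f ∣[(1 : ℤ) + m] g := rfl
  have hf'per : Function.Periodic (⇑f' ∘ ofComplex) M :=
    SlashInvariantFormClass.periodic_comp_ofComplex f' hperδ
  have hcusp : IsCusp OnePoint.infty (toConjAct g⁻¹ • (Γ : Subgroup (GL (Fin 2) ℝ))) :=
    Subgroup.isCusp_of_mem_strictPeriods hMpos hperδ
  have hf'zero : IsZeroAtImInfty (⇑f' : ℍ → ℂ) :=
    OnePoint.isZeroAt_infty_iff.mp (CuspFormClass.zero_at_cusps f' hcusp)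
  refine ⟨M, hM, ?_, ?_, ?_⟩
  · exact CuspFormClass.holo f'
  · exact hf'per
  · exact hf'zero

theorem exists_eichlerAt (f : CFG Γ m) (α : SL(2, ℤ)) :
    ∃ G : ℍ → ℂ, MDiff G ∧ IsZeroAtImInfty G ∧ D^[m] G = (⇑f : ℍ → ℂ) ∣[(1 : ℤ) + m] α := by
  obtain ⟨M, hM, hmd, hper, hz⟩ := slash_facts f α
  obtain ⟨G, h1, -, h3, h4⟩ :=
    exists_iterated_antideriv m (Nat.cast_pos.mpr hM : (0 : ℝ) < M) hmd hper hz
  exact ⟨G, h1, h3, h4⟩

/-- The Eichler integral of `f ∣ α`. -/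
noncomputable def eichlerAt (f : CFG Γ m) (α : SL(2, ℤ)) : ℍ → ℂ :=
  Classical.choose (exists_eichlerAt f α)

theorem eichlerAt_mdiff (f : CFG Γ m) (α : SL(2, ℤ)) : MDiff (eichlerAt f α) :=
  (Classical.choose_spec (exists_eichlerAt f α)).1

theorem eichlerAt_zero (f : CFG Γ m) (α : SL(2, ℤ)) : IsZeroAtImInfty (eichlerAt f α) :=
  (Classical.choose_spec (exists_eichlerAt f α)).2.1

theorem iterate_D_eichlerAt (f : CFG Γ m) (α : SL(2, ℤ)) :
    D^[m] (eichlerAt f α) = (⇑f : ℍ → ℂ) ∣[(1 : ℤ) + m] α :=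
  (Classical.choose_spec (exists_eichlerAt f α)).2.2

theorem eichlerAt_eq {f : CFG Γ m} {α : SL(2, ℤ)} {G : ℍ → ℂ} (hG : MDiff G)
    (hz : IsZeroAtImInfty G) (hD : D^[m] G = (⇑f : ℍ → ℂ) ∣[(1 : ℤ) + m] α) :
    eichlerAt f α = G :=
  uniq_of_iterate_D_eq (eichlerAt_mdiff f α) hG (eichlerAt_zero f α) hz
    ((iterate_D_eichlerAt f α).trans hD.symm)

theorem eichlerAt_add (f g : CFG Γ m) (α : SL(2, ℤ)) :
    eichlerAt (f + g) α = eichlerAt f α + eichlerAt g α := by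
  apply eichlerAt_eq ((eichlerAt_mdiff f α).add (eichlerAt_mdiff g α))
    ((eichlerAt_zero f α).add (eichlerAt_zero g α))
  rw [iterate_D_add m (eichlerAt_mdiff f α) (eichlerAt_mdiff g α), iterate_D_eichlerAt,
    iterate_D_eichlerAt, ← SlashAction.add_slash]
  rfl

theorem eichlerAt_smul (c : ℂ) (f : CFG Γ m) (α : SL(2, ℤ)) :
    eichlerAt (c • f) α = c • eichlerAt f α := by
  apply eichlerAt_eq ((eichlerAt_mdiff f α).const_smul c) ((eichlerAt_zero f α).smul c)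
  rw [iterate_D_smul m c (eichlerAt_mdiff f α), iterate_D_eichlerAt, ← SL_smul_slash]
  rfl

/-- Left translation by `Γ` does not change the Eichler integral. -/
theorem eichlerAt_mul_left (f : CFG Γ m) {δ : SL(2, ℤ)} (hδ : δ ∈ Γ) (α : SL(2, ℤ)) :
    eichlerAt f (δ * α) = eichlerAt f α := by
  apply eichlerAt_eq (eichlerAt_mdiff f α) (eichlerAt_zero f α)
  rw [iterate_D_eichlerAt, SlashAction.slash_mul]
  congr 1
  exact (SlashInvariantForm.slash_action_eqn f _ (Subgroup.mem_map_of_mem _ hδ)).symm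

/-- The period function `E(f, α) ∣[1 - m] γ - E(f, α γ)`. -/
noncomputable def pfun (Γ : Subgroup SL(2, ℤ)) [Γ.FiniteIndex] (m : ℕ) (α γ : SL(2, ℤ)) :
    CFG Γ m →ₗ[ℂ] (ℍ → ℂ) where
  toFun f := (eichlerAt f α) ∣[(1 : ℤ) - m] γ - eichlerAt f (α * γ)
  map_add' f g := by
    rw [eichlerAt_add, eichlerAt_add, SlashAction.add_slash]; abel
  map_smul' c f := by
    rw [eichlerAt_smul, eichlerAt_smul, SL_smul_slash, RingHom.id_apply, smul_sub]

@[simp] theorem pfun_apply (α γ : SL(2, ℤ)) (f : CFG Γ m) :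
    pfun Γ m α γ f = (eichlerAt f α) ∣[(1 : ℤ) - m] γ - eichlerAt f (α * γ) := rfl

theorem pfun_mdiff (α γ : SL(2, ℤ)) (f : CFG Γ m) : MDiff (pfun Γ m α γ f) :=
  (mdiff_SL_slash (eichlerAt_mdiff f α) _ _).sub (eichlerAt_mdiff f _)

theorem iterate_D_pfun (α γ : SL(2, ℤ)) (f : CFG Γ m) : D^[m] (pfun Γ m α γ f) = 0 := by
  rw [pfun_apply, iterate_D_sub m (mdiff_SL_slash (eichlerAt_mdiff f α) _ _) (eichlerAt_mdiff f _),
    bol_SL m (eichlerAt_mdiff f α), iterate_D_eichlerAt, iterate_D_eichlerAt,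
    SlashAction.slash_mul, sub_self]

theorem exists_poly_pfun (α γ : SL(2, ℤ)) (f : CFG Γ m) :
    ∃ P : Polynomial ℂ, P.degree < m ∧ pfun Γ m α γ f = polyFun P :=
  exists_poly_of_iterate_D_eq_zero m (pfun_mdiff α γ f) (iterate_D_pfun α γ f)

theorem pfun_mem_range (α γ : SL(2, ℤ)) (f : CFG Γ m) :
    pfun Γ m α γ f ∈ LinearMap.range polyFunL := by
  obtain ⟨P, -, hP⟩ := exists_poly_pfun α γ f
  exact ⟨P, hP.symm⟩

/-- The period polynomial `r(α, γ)`. -/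
noncomputable def rpoly (Γ : Subgroup SL(2, ℤ)) [Γ.FiniteIndex] (m : ℕ) (α γ : SL(2, ℤ)) :
    CFG Γ m →ₗ[ℂ] Polynomial ℂ :=
  (LinearEquiv.ofInjective polyFunL polyFun_injective).symm.toLinearMap ∘ₗ
    (pfun Γ m α γ).codRestrict (LinearMap.range polyFunL) (fun f => pfun_mem_range α γ f)

theorem polyFun_rpoly (α γ : SL(2, ℤ)) (f : CFG Γ m) :
    polyFun (rpoly Γ m α γ f) = pfun Γ m α γ f := by
  have := (LinearEquiv.ofInjective polyFunL polyFun_injective).apply_symm_apply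
    ((pfun Γ m α γ).codRestrict (LinearMap.range polyFunL) (fun f => pfun_mem_range α γ f) f)
  exact congrArg Subtype.val this

theorem degree_rpoly_lt (α γ : SL(2, ℤ)) (f : CFG Γ m) : (rpoly Γ m α γ f).degree < m := by
  obtain ⟨P, hdeg, hP⟩ := exists_poly_pfun α γ f
  have : rpoly Γ m α γ f = P := polyFun_injective ((polyFun_rpoly α γ f).trans hP)
  rwa [this]

theorem pfun_mul (α γ γ' : SL(2, ℤ)) (f : CFG Γ m) :
    pfun Γ m α (γ * γ') f = (pfun Γ m α γ f) ∣[(1 : ℤ) - m] γ' + pfun Γ m (α * γ) γ' f := by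
  simp only [pfun_apply, SlashAction.slash_mul, sub_slash', mul_assoc]
  abel

theorem rpoly_mul (α γ γ' : SL(2, ℤ)) (f : CFG Γ m) :
    rpoly Γ m α (γ * γ') f = polySlashSL m γ' (rpoly Γ m α γ f) + rpoly Γ m (α * γ) γ' f := by
  apply polyFun_injective
  rw [polyFun_add, polyFun_rpoly, polyFun_rpoly, polyFun_polySlashSL (degree_rpoly_lt α γ f),
    polyFun_rpoly, pfun_mul]

theorem rpoly_one (α : SL(2, ℤ)) (f : CFG Γ m) : rpoly Γ m α 1 f = 0 := by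
  apply polyFun_injective
  rw [polyFun_rpoly, polyFun_zero, pfun_apply, mul_one]
  simp

theorem rpoly_inv (α γ : SL(2, ℤ)) (f : CFG Γ m) :
    rpoly Γ m α γ⁻¹ f = - polySlashSL m γ⁻¹ (rpoly Γ m (α * γ⁻¹) γ f) := by
  have h := rpoly_mul (α * γ⁻¹) γ γ⁻¹ f
  rw [mul_inv_cancel, rpoly_one, inv_mul_cancel_right] at h
  exact eq_neg_of_add_eq_zero_right h.symm

theorem rpoly_mul_left {δ : SL(2, ℤ)} (hδ : δ ∈ Γ) (α γ : SL(2, ℤ)) :
    rpoly Γ m (δ * α) γ = rpoly Γ m α γ := by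
  ext1 f
  apply polyFun_injective
  rw [polyFun_rpoly, polyFun_rpoly, pfun_apply, pfun_apply, mul_assoc, eichlerAt_mul_left f hδ,
    eichlerAt_mul_left f hδ]

end Fermat.Agent.DS.ES
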