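/-
The period lattice of a finite-index subgroup `Γ ≤ SL(2, ℤ)`: the `ℤ`-span of the coefficient
functionals of the period polynomials `r(α, γ)`, `α ∈ SL(2, ℤ)`, `γ ∈ {S, T}`.  It is finitely
generated (because `α ↦ r(α, γ)` factors through `Γ \ SL(2, ℤ)`), contains the coefficients of
all `r(α, γ)` (cocycle relation and `SL(2, ℤ) = ⟨S, T⟩`), and is separating.
-/
import Fermat.Agent.DS.ES.Eichler

set_option autoImplicit false

namespace Fermat.Agent.DS.ES

open UpperHalfPlane ModularForm Derivative ConjAct Matrix.SpecialLinearGroup Polynomial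
open scoped MatrixGroups ModularForm Manifold Pointwise
open Fermat.Agent.S22_helper8 Fermat.Agent.S22_helper15 Fermat.Agent.S22_helper71
open Fermat.Agent.S22_helper97

variable {Γ : Subgroup SL(2, ℤ)} [Γ.FiniteIndex] {m : ℕ}

/-- For fixed `γ`, the set of all `r(α, γ)` is finite. -/
theorem finite_range_rpoly (γ : SL(2, ℤ)) :
    (Set.range fun α : SL(2, ℤ) => rpoly Γ m α γ).Finite := by
  have hfin : Finite (SL(2, ℤ) ⧸ Γ) := Subgroup.finite_quotient_of_finiteIndex
  refine (Set.finite_range fun q : SL(2, ℤ) ⧸ Γ => rpoly Γ m (q.out)⁻¹ γ).subset ?_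
  rintro _ ⟨α, rfl⟩
  refine ⟨(α⁻¹ : SL(2, ℤ)), ?_⟩
  obtain ⟨h, hh⟩ := QuotientGroup.mk_out_eq_mul Γ (α⁻¹)
  change rpoly Γ m ((QuotientGroup.mk (α⁻¹) : SL(2, ℤ) ⧸ Γ).out)⁻¹ γ = rpoly Γ m α γ
  rw [hh, mul_inv_rev, inv_inv]
  exact rpoly_mul_left (inv_mem h.2) α γ

/-- The generating set of the period lattice. -/
def latticeGens (Γ : Subgroup SL(2, ℤ)) [Γ.FiniteIndex] (m : ℕ) :
    Set (Module.Dual ℂ (CFG Γ m)) :=
  {l | ∃ α : SL(2, ℤ), ∃ γ ∈ ({ModularGroup.S, ModularGroup.T} : Set SL(2, ℤ)), ∃ i < m,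
    l = (lcoeff ℂ i) ∘ₗ rpoly Γ m α γ}

theorem finite_latticeGens : (latticeGens Γ m).Finite := by
  have h1 : ∀ γ : SL(2, ℤ), ∀ i : ℕ,
      (Set.range fun α : SL(2, ℤ) => (lcoeff ℂ i) ∘ₗ rpoly Γ m α γ).Finite := by
    intro γ i
    have : (Set.range fun α : SL(2, ℤ) => (lcoeff ℂ i) ∘ₗ rpoly Γ m α γ) =
        (fun Q : CFG Γ m →ₗ[ℂ] Polynomial ℂ => (lcoeff ℂ i) ∘ₗ Q) ''
          (Set.range fun α : SL(2, ℤ) => rpoly Γ m α γ) := by
      rw [← Set.range_comp]; rfl
    rw [this]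
    exact (finite_range_rpoly γ).image _
  have h2 : latticeGens Γ m ⊆
      ⋃ γ ∈ ({ModularGroup.S, ModularGroup.T} : Set SL(2, ℤ)), ⋃ i ∈ Finset.range m,
        (Set.range fun α : SL(2, ℤ) => (lcoeff ℂ i) ∘ₗ rpoly Γ m α γ) := by
    rintro l ⟨α, γ, hγ, i, hi, rfl⟩
    simp only [Set.mem_iUnion]
    exact ⟨γ, hγ, i, Finset.mem_range.mpr hi, α, rfl⟩
  refine Set.Finite.subset ?_ h2
  refine Set.Finite.biUnion (by simp) fun γ _ => ?_
  exact Set.Finite.biUnion (Finset.finite_toSet _) fun i _ => h1 γ i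

/-- The period lattice. -/
def periodLattice (Γ : Subgroup SL(2, ℤ)) [Γ.FiniteIndex] (m : ℕ) :
    Submodule ℤ (Module.Dual ℂ (CFG Γ m)) :=
  Submodule.span ℤ (latticeGens Γ m)

theorem periodLattice_fg : (periodLattice Γ m).FG :=
  Submodule.fg_span finite_latticeGens

theorem coeffsIn_rpoly_gen (α : SL(2, ℤ)) {γ : SL(2, ℤ)}
    (hγ : γ ∈ ({ModularGroup.S, ModularGroup.T} : Set SL(2, ℤ))) :
    CoeffsIn (periodLattice Γ m) m (rpoly Γ m α γ) := by
  intro i hi
  exact Submodule.subset_span ⟨α, γ, hγ, i, hi, rfl⟩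

/-- All period polynomials have their coefficient functionals in the period lattice. -/
theorem coeffsIn_rpoly (α γ : SL(2, ℤ)) : CoeffsIn (periodLattice Γ m) m (rpoly Γ m α γ) := by
  have hγ : γ ∈ Subgroup.closure ({ModularGroup.S, ModularGroup.T} : Set SL(2, ℤ)) := by
    rw [SpecialLinearGroup.SL2Z_generators]; trivial
  induction hγ using Subgroup.closure_induction generalizing α with
  | mem x hx => exact coeffsIn_rpoly_gen α hx
  | one =>
    have : rpoly Γ m α 1 = 0 := by ext1 f; simpa using rpoly_one α f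
    rw [this]; exact CoeffsIn.zero
  | mul x y _ _ ihx ihy =>
    have : rpoly Γ m α (x * y) = polySlashSL m y ∘ₗ rpoly Γ m α x + rpoly Γ m (α * x) y := by
      ext1 f; simpa using rpoly_mul α x y f
    rw [this]
    exact ((ihx α).polySlash _ _ _ _).add (ihy (α * x))
  | inv x _ ihx =>
    have : rpoly Γ m α x⁻¹ = -(polySlashSL m x⁻¹ ∘ₗ rpoly Γ m (α * x⁻¹) x) := by
      ext1 f; simpa using rpoly_inv α x f
    rw [this]
    exact ((ihx (α * x⁻¹)).polySlash _ _ _ _).neg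

/-- The period lattice is separating. -/
theorem periodLattice_separating (hm : 1 ≤ m) (f : CFG Γ m)
    (hf : ∀ l ∈ periodLattice Γ m, l f = 0) : f = 0 := by
  have hP : ∀ γ : SL(2, ℤ), rpoly Γ m 1 γ f = 0 := by
    intro γ
    ext i
    rcases lt_or_ge i m with hi | hi
    · have := hf _ (coeffsIn_rpoly 1 γ i hi)
      simpa using this
    · rw [coeff_zero]
      exact coeff_eq_zero_of_degree_lt ((degree_rpoly_lt 1 γ f).trans_le (by exact_mod_cast hi))
  refine eq_zero_of_eichler_invariant hm f (eichlerAt f 1) (eichlerAt_mdiff f 1)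
    (eichlerAt_zero f 1) ?_ ?_
  · rw [iterate_D_eichlerAt]
    exact SlashAction.slash_one _ _
  · rintro _ ⟨γ, hγ, rfl⟩
    have h1 : pfun Γ m 1 γ f = 0 := by rw [← polyFun_rpoly, hP γ, polyFun_zero]
    rw [pfun_apply, sub_eq_zero, one_mul] at h1
    have h2 : eichlerAt f γ = eichlerAt f 1 := by
      have := eichlerAt_mul_left f hγ 1
      rwa [mul_one] at this
    rw [h2] at h1
    exact h1

end Fermat.Agent.DS.ES
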