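/-
Stability of the period lattice under every operator which is a finite sum of slash actions by
integer matrices of positive determinant.  The proof uses the Hermite normal form
`x · α = β · u` (`β ∈ SL(2, ℤ)`, `u` upper triangular integral) to compute the Eichler integral of
`T f` at every cusp; no coset bijection is needed.
-/
import Fermat.Agent.DS.ES.Lattice
import Fermat.Agent.S22_helper97.HeckeEichler

set_option autoImplicit false

namespace Fermat.Agent.DS.ES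

open UpperHalfPlane ModularForm Derivative ConjAct Matrix.SpecialLinearGroup Polynomial
open scoped MatrixGroups ModularForm Manifold Pointwise
open Fermat.Agent.S22_helper8 Fermat.Agent.S22_helper15 Fermat.Agent.S22_helper71
open Fermat.Agent.S22_helper97

/-- An element of `GL(2, ℝ)` with integer entries and positive determinant. -/
def IsIntGL (x : GL (Fin 2) ℝ) : Prop :=
  0 < x.val.det ∧ ∀ i j, ∃ n : ℤ, x.val i j = (n : ℝ)

theorem isIntGL_mapGL (σ : SL(2, ℤ)) : IsIntGL (mapGL ℝ σ) :=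
  ⟨by rw [det_mapGL]; exact one_pos, fun i j => ⟨σ i j, mapGL_apply' σ i j⟩⟩

theorem IsIntGL.mul {x y : GL (Fin 2) ℝ} (hx : IsIntGL x) (hy : IsIntGL y) : IsIntGL (x * y) := by
  refine ⟨?_, fun i j => ?_⟩
  · rw [Units.val_mul, Matrix.det_mul]; exact mul_pos hx.1 hy.1
  · choose a ha using hx.2
    choose b hb using hy.2
    refine ⟨∑ k, a i k * b k j, ?_⟩
    rw [Units.val_mul, Matrix.mul_apply]
    push_cast
    exact Finset.sum_congr rfl fun k _ => by rw [ha, hb]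

theorem inv_apply_one_zero (β : SL(2, ℤ)) : (β⁻¹ : SL(2, ℤ)).val 1 0 = - β.val 1 0 := by
  rw [Matrix.SpecialLinearGroup.coe_inv, Matrix.adjugate_fin_two]; simp

theorem inv_apply_one_one (β : SL(2, ℤ)) : (β⁻¹ : SL(2, ℤ)).val 1 1 = β.val 0 0 := by
  rw [Matrix.SpecialLinearGroup.coe_inv, Matrix.adjugate_fin_two]; simp

/-- Hermite normal form: an integral matrix of positive determinant is `β · u` with
`β ∈ SL(2, ℤ)` and `u` integral upper triangular. -/
theorem exists_hnf {x : GL (Fin 2) ℝ} (hx : IsIntGL x) :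
    ∃ (β : SL(2, ℤ)) (u : GL (Fin 2) ℝ), IsIntGL u ∧ u.val 1 0 = 0 ∧ x = mapGL ℝ β * u := by
  obtain ⟨a, ha⟩ := hx.2 0 0
  obtain ⟨c, hc⟩ := hx.2 1 0
  have hac : a ≠ 0 ∨ c ≠ 0 := by
    by_contra h
    rw [not_or, not_not, not_not] at h
    have hdet := hx.1
    rw [Matrix.det_fin_two, ha, hc, h.1, h.2] at hdet
    simp at hdet
  have hg0 : 0 < Int.gcd a c := Int.gcd_pos_iff.mpr hac
  obtain ⟨g, hgdef⟩ : ∃ g : ℕ, g = Int.gcd a c := ⟨_, rfl⟩
  have hg : 0 < g := hgdef ▸ hg0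
  obtain ⟨a', ha'⟩ : (g : ℤ) ∣ a := hgdef ▸ Int.gcd_dvd_left a c
  obtain ⟨c', hc'⟩ : (g : ℤ) ∣ c := hgdef ▸ Int.gcd_dvd_right a c
  have hcop : Int.gcd a' c' = 1 := by
    have h1 : g = g * Int.gcd a' c' := by
      conv_lhs => rw [hgdef, ha', hc', Int.gcd_mul_left, Int.natAbs_natCast]
    have h2 : g * 1 = g * Int.gcd a' c' := by rw [mul_one]; exact h1
    exact (Nat.eq_of_mul_eq_mul_left hg h2).symm
  have hbez : a' * Int.gcdA a' c' + c' * Int.gcdB a' c' = 1 := by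
    have := Int.gcd_eq_gcd_ab a' c'
    rw [hcop] at this
    exact_mod_cast this.symm
  set s := Int.gcdA a' c' with hs
  set t := Int.gcdB a' c' with ht
  let β : SL(2, ℤ) := ⟨!![a', -t; c', s], by
    rw [Matrix.det_fin_two_of]; linarith⟩
  refine ⟨β, mapGL ℝ β⁻¹ * x, (isIntGL_mapGL β⁻¹).mul hx, ?_, ?_⟩
  · rw [Units.val_mul, Matrix.mul_apply, Fin.sum_univ_two, mapGL_apply' β⁻¹ 1 0,
      mapGL_apply' β⁻¹ 1 1, ha, hc]
    have e1 : (β⁻¹ : SL(2, ℤ)) 1 0 = -c' := by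
      rw [inv_apply_one_zero]; rfl
    have e2 : (β⁻¹ : SL(2, ℤ)) 1 1 = a' := by
      rw [inv_apply_one_one]; rfl
    rw [e1, e2]
    have : (-c') * a + a' * c = 0 := by rw [ha', hc']; ring
    exact_mod_cast this
  · rw [← mul_assoc, ← map_mul, mul_inv_cancel, map_one, one_mul]

variable {Γ : Subgroup SL(2, ℤ)} [Γ.FiniteIndex] {m : ℕ}

theorem SL_slash_mapGL (k : ℤ) (F : ℍ → ℂ) (γ : SL(2, ℤ)) :
    F ∣[k] γ = F ∣[k] (mapGL ℝ γ) := rfl

theorem sub_slashGL' (k : ℤ) (g : GL (Fin 2) ℝ) (a b : ℍ → ℂ) :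
    (a - b) ∣[k] g = a ∣[k] g - b ∣[k] g := by
  rw [sub_eq_add_neg, SlashAction.add_slash, SlashAction.neg_slash, ← sub_eq_add_neg]

theorem smul_slashGL_of_det_pos (k : ℤ) {g : GL (Fin 2) ℝ} (hg : 0 < g.val.det) (c : ℂ)
    (F : ℍ → ℂ) : (c • F) ∣[k] g = c • (F ∣[k] g) := by
  rw [ModularForm.smul_slash]
  congr 1
  simp [UpperHalfPlane.σ, hg]

theorem polyFun_finset_sum' {ι : Type*} (s : Finset ι) (P : ι → Polynomial ℂ) :
    polyFun (∑ x ∈ s, P x) = ∑ x ∈ s, polyFun (P x) :=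
  map_sum polyFunL P s

/-- The Eichler integral of `T f` at the cusp `α`, for any upper triangular decomposition of the
matrices `x i · α`. -/
theorem eichlerAt_of_decomp {ι : Type} [Fintype ι] {T : Module.End ℂ (CFG Γ m)}
    {x : ι → GL (Fin 2) ℝ}
    (hT : ∀ f : CFG Γ m, (⇑(T f) : ℍ → ℂ) = ∑ i, (⇑f : ℍ → ℂ) ∣[(1 : ℤ) + m] x i)
    (α : SL(2, ℤ)) (β : ι → SL(2, ℤ)) (u : ι → GL (Fin 2) ℝ)
    (hu : ∀ i, 0 < (u i).val.det) (hu0 : ∀ i, (u i).val 1 0 = 0)
    (hdec : ∀ i, x i * mapGL ℝ α = mapGL ℝ (β i) * u i) (f : CFG Γ m) :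
    eichlerAt (T f) α =
      ∑ i, ((u i).val.det : ℂ) ^ m • ((eichlerAt f (β i)) ∣[(1 : ℤ) - m] u i) := by
  apply eichlerAt_eq
  · exact mdiff_finset_sum _ fun i _ => ((eichlerAt_mdiff f (β i)).slash _ _).const_smul _
  · exact isZeroAtImInfty_finset_sum _ fun i _ =>
      ((eichlerAt_zero f (β i)).slash _ (hu0 i)).smul _
  · rw [iterate_D_finset_sum m _
      (fun i _ => ((eichlerAt_mdiff f (β i)).slash _ _).const_smul _), hT, SL_slash_mapGL,
      SlashAction.sum_slash]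
    refine Finset.sum_congr rfl fun i _ => ?_
    have hdetne : ((u i).val.det : ℂ) ≠ 0 := Complex.ofReal_ne_zero.mpr (hu i).ne'
    rw [iterate_D_smul m _ ((eichlerAt_mdiff f (β i)).slash _ _),
      bol m (eichlerAt_mdiff f (β i)) (hu i), smul_smul, ← mul_pow, mul_inv_cancel₀ hdetne,
      one_pow, one_smul, iterate_D_eichlerAt, SL_slash_mapGL, ← SlashAction.slash_mul,
      ← SlashAction.slash_mul]
    exact congrArg (fun g : GL (Fin 2) ℝ => (⇑f : ℍ → ℂ) ∣[(1 : ℤ) + m] g) (hdec i).symm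

/-- The determinant of `u` in a relation `u · γ = γ' · u'`. -/
theorem det_eq_of_mul_mapGL {u u' : GL (Fin 2) ℝ} {γ γ' : SL(2, ℤ)}
    (h : u * mapGL ℝ γ = mapGL ℝ γ' * u') : u.val.det = u'.val.det := by
  have h1 := congrArg (fun g : GL (Fin 2) ℝ => g.val.det) h
  simp only [Units.val_mul, Matrix.det_mul] at h1
  rw [det_mapGL, det_mapGL, mul_one, one_mul] at h1
  exact h1

/-- **Key formula**: the period polynomials of `T f` are integral combinations of those of `f`. -/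
theorem exists_rpoly_comp {ι : Type} [Fintype ι] {T : Module.End ℂ (CFG Γ m)}
    {x : ι → GL (Fin 2) ℝ} (hx : ∀ i, IsIntGL (x i))
    (hT : ∀ f : CFG Γ m, (⇑(T f) : ℍ → ℂ) = ∑ i, (⇑f : ℍ → ℂ) ∣[(1 : ℤ) + m] x i)
    (α γ : SL(2, ℤ)) :
    ∃ (β γ' : ι → SL(2, ℤ)) (a b c d : ι → ℤ), ∀ f : CFG Γ m,
      rpoly Γ m α γ (T f) =
        ∑ i, polySlash m (a i) (b i) (c i) (d i) (rpoly Γ m (β i) (γ' i) f) := by
  choose β u hu hu0 hdec using fun i => exists_hnf ((hx i).mul (isIntGL_mapGL α))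
  choose γ' u' hu' hu'0 hdec' using fun i => exists_hnf ((hu i).mul (isIntGL_mapGL γ))
  choose e he using fun i => (hu' i).2
  have hdet : ∀ i, (u i).val.det = (u' i).val.det := fun i => det_eq_of_mul_mapGL (hdec' i)
  have hdec2 : ∀ i, x i * mapGL ℝ (α * γ) = mapGL ℝ (β i * γ' i) * u' i := by
    intro i
    rw [map_mul, ← mul_assoc, hdec i, mul_assoc, hdec' i, ← mul_assoc, ← map_mul]
  refine ⟨β, γ', fun i => e i 0 0, fun i => e i 0 1, fun i => e i 1 0, fun i => e i 1 1,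
    fun f => ?_⟩
  apply polyFun_injective
  rw [polyFun_finset_sum', polyFun_rpoly, pfun_apply,
    eichlerAt_of_decomp hT α β u (fun i => (hu i).1) hu0 hdec f,
    eichlerAt_of_decomp hT (α * γ) (fun i => β i * γ' i) u' (fun i => (hu' i).1) hu'0 hdec2 f,
    SL_slash_mapGL, SlashAction.sum_slash, ← Finset.sum_sub_distrib]
  refine Finset.sum_congr rfl fun i _ => ?_
  rw [polyFun_polySlash (g := u' i) (he i 0 0) (he i 0 1) (he i 1 0) (he i 1 1) (hu' i).1
    (degree_rpoly_lt (β i) (γ' i) f), polyFun_rpoly, pfun_apply, sub_slashGL',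
    smul_slashGL_of_det_pos _ (isIntGL_mapGL γ).1, ← SlashAction.slash_mul,
    hdet i, smul_sub]
  congr 2
  rw [SL_slash_mapGL, ← SlashAction.slash_mul]
  exact congrArg (fun g : GL (Fin 2) ℝ => (eichlerAt f (β i)) ∣[(1 : ℤ) - m] g) (hdec' i)

/-- **Stability** of the period lattice under integer-matrix-sum operators. -/
theorem periodLattice_comp_mem {ι : Type} [Fintype ι] {T : Module.End ℂ (CFG Γ m)}
    {x : ι → GL (Fin 2) ℝ} (hx : ∀ i, IsIntGL (x i))
    (hT : ∀ f : CFG Γ m, (⇑(T f) : ℍ → ℂ) = ∑ i, (⇑f : ℍ → ℂ) ∣[(1 : ℤ) + m] x i) :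
    ∀ l ∈ periodLattice Γ m, l ∘ₗ T ∈ periodLattice Γ m := by
  intro l hl
  induction hl using Submodule.span_induction with
  | mem l hl =>
    obtain ⟨α, γ, -, i, hi, rfl⟩ := hl
    obtain ⟨β, γ', a, b, c, d, hf⟩ := exists_rpoly_comp hx hT α γ
    have hQ : rpoly Γ m α γ ∘ₗ T =
        ∑ j, polySlash m (a j) (b j) (c j) (d j) ∘ₗ rpoly Γ m (β j) (γ' j) := by
      ext1 f
      simp [hf, LinearMap.sum_apply]
    have hC : CoeffsIn (periodLattice Γ m) m (rpoly Γ m α γ ∘ₗ T) := by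
      rw [hQ]
      exact CoeffsIn.sum _ fun j _ => (coeffsIn_rpoly (β j) (γ' j)).polySlash _ _ _ _
    exact hC i hi
  | zero => simp
  | add x y _ _ hx hy =>
    rw [LinearMap.add_comp]; exact Submodule.add_mem _ hx hy
  | smul c x _ hx =>
    rw [LinearMap.smul_comp]; exact Submodule.smul_mem _ c hx

end Fermat.Agent.DS.ES
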