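/-
Generic Eichler–Shimura finiteness: for every finite-index subgroup `Γ ≤ SL(2, ℤ)` and every
weight `1 + m ≥ 2` there is a finitely generated, separating `ℤ`-lattice of linear functionals on
`CuspForm Γ (1 + m)` which is stable under every operator that is a finite sum of slash actions
by integer matrices of positive determinant (Hecke operators `T_p`, `U_q`, diamond operators,
level-changing operators, ...).  Consequently the `ℤ`-algebra generated by any set of such
operators is a finitely generated `ℤ`-module.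
-/
import Fermat.Agent.DS.ES.Stable

set_option autoImplicit false

namespace Fermat.Agent.DS.ES

open UpperHalfPlane ModularForm Matrix.SpecialLinearGroup
open scoped MatrixGroups ModularForm Manifold
open Fermat.Agent.S22_helper22

variable {Γ : Subgroup SL(2, ℤ)} [Γ.FiniteIndex] {m : ℕ}

/-- An endomorphism of `CuspForm Γ (1 + m)` which is a finite sum of slash actions by integer
matrices of positive determinant. -/
def IsIntSumOp (Γ : Subgroup SL(2, ℤ)) [Γ.FiniteIndex] (m : ℕ)
    (T : Module.End ℂ (CFG Γ m)) : Prop :=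
  ∃ (ι : Type) (_ : Fintype ι) (x : ι → GL (Fin 2) ℝ), (∀ i, IsIntGL (x i)) ∧
    ∀ f : CFG Γ m, (⇑(T f) : ℍ → ℂ) = ∑ i, (⇑f : ℍ → ℂ) ∣[(1 : ℤ) + m] x i

theorem IsIntSumOp.comp_mem {T : Module.End ℂ (CFG Γ m)} (hT : IsIntSumOp Γ m T) :
    ∀ l ∈ periodLattice Γ m, l ∘ₗ T ∈ periodLattice Γ m := by
  obtain ⟨ι, _, x, hx, hf⟩ := hT
  exact periodLattice_comp_mem hx hf

/-- **Existence of the Eichler–Shimura lattice** (generic level, weight `≥ 2`). -/
theorem exists_period_lattice (Γ : Subgroup SL(2, ℤ)) [Γ.FiniteIndex] (m : ℕ) (hm : 1 ≤ m) :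
    ∃ Λ : Submodule ℤ (Module.Dual ℂ (CFG Γ m)), Λ.FG ∧
      (∀ f : CFG Γ m, (∀ l ∈ Λ, l f = 0) → f = 0) ∧
      ∀ T : Module.End ℂ (CFG Γ m), IsIntSumOp Γ m T → ∀ l ∈ Λ, l ∘ₗ T ∈ Λ :=
  ⟨periodLattice Γ m, periodLattice_fg, periodLattice_separating hm, fun _ hT => hT.comp_mem⟩

theorem IsIntSumOp.mem_stabilizer {T : Module.End ℂ (CFG Γ m)} (hT : IsIntSumOp Γ m T) :
    T ∈ stabilizerSubalgebra (periodLattice Γ m) :=
  (mem_stabilizerSubalgebra _ _).mpr hT.comp_mem

/-- The stabiliser of the period lattice is a finitely generated `ℤ`-module. -/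
theorem finite_stabilizer_periodLattice (Γ : Subgroup SL(2, ℤ)) [Γ.FiniteIndex] (m : ℕ)
    (hm : 1 ≤ m) : Module.Finite ℤ (stabilizerSubalgebra (periodLattice Γ m)) :=
  finite_stabilizerSubalgebra _ periodLattice_fg (periodLattice_separating hm)

/-- **Finiteness of Hecke algebras** (generic level, weight `≥ 2`): the `ℤ`-algebra generated by
any set of integer-matrix-sum operators is a finitely generated `ℤ`-module. -/
theorem finite_adjoin_intSumOp (Γ : Subgroup SL(2, ℤ)) [Γ.FiniteIndex] (m : ℕ) (hm : 1 ≤ m)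
    (𝒢 : Set (Module.End ℂ (CFG Γ m))) (h𝒢 : ∀ T ∈ 𝒢, IsIntSumOp Γ m T) :
    Module.Finite ℤ (Algebra.adjoin ℤ 𝒢) :=
  finite_adjoin_of_dual_lattice 𝒢 (periodLattice Γ m) periodLattice_fg
    (fun T hT => (h𝒢 T hT).comp_mem) (periodLattice_separating hm)

/-- The identity is an integer-matrix-sum operator. -/
theorem isIntSumOp_one : IsIntSumOp Γ m (1 : Module.End ℂ (CFG Γ m)) := by
  refine ⟨Unit, inferInstance, fun _ => 1, fun _ => ?_, fun f => ?_⟩
  · simpa using isIntGL_mapGL 1
  · simp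

/-- Integer-matrix-sum operators are closed under composition. -/
theorem IsIntSumOp.mul {T T' : Module.End ℂ (CFG Γ m)} (hT : IsIntSumOp Γ m T)
    (hT' : IsIntSumOp Γ m T') : IsIntSumOp Γ m (T * T') := by
  obtain ⟨ι, _, x, hx, hf⟩ := hT
  obtain ⟨ι', _, x', hx', hf'⟩ := hT'
  refine ⟨ι × ι', inferInstance, fun p => x' p.2 * x p.1, fun p => (hx' p.2).mul (hx p.1),
    fun f => ?_⟩
  rw [Module.End.mul_apply, hf, Fintype.sum_prod_type]
  refine Finset.sum_congr rfl fun i _ => ?_
  rw [hf', SlashAction.sum_slash]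
  exact Finset.sum_congr rfl fun j _ => (SlashAction.slash_mul _ _ _ _).symm

/-- Integer-matrix-sum operators are closed under addition. -/
theorem IsIntSumOp.add {T T' : Module.End ℂ (CFG Γ m)} (hT : IsIntSumOp Γ m T)
    (hT' : IsIntSumOp Γ m T') : IsIntSumOp Γ m (T + T') := by
  obtain ⟨ι, _, x, hx, hf⟩ := hT
  obtain ⟨ι', _, x', hx', hf'⟩ := hT'
  refine ⟨ι ⊕ ι', inferInstance, Sum.elim x x', fun p => ?_, fun f => ?_⟩
  · cases p with
    | inl i => exact hx i
    | inr j => exact hx' j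
  · rw [LinearMap.add_apply, Fintype.sum_sum_type]
    change (⇑(T f) : ℍ → ℂ) + ⇑(T' f) = _
    rw [hf, hf']
    rfl

end Fermat.Agent.DS.ES
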