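/-
The Hecke algebra `heckeAlgebra1 N k S = ℤ[T_ℓ, ⟨d⟩]` of `S_k(Γ₁(N))` (helper18, `DS/Hecke`) is a
finitely generated `ℤ`-module for every weight `k ≥ 2`: the `Γ₁`-twin of statement S22.
-/
import Fermat.Agent.DS.ES.Main
import Fermat.Agent.DS.Hecke.HeckeAlgebra1

set_option autoImplicit false

namespace Fermat.Agent.DS.ES

open UpperHalfPlane ModularForm Matrix.SpecialLinearGroup CongruenceSubgroup
open scoped MatrixGroups ModularForm Manifold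
open Fermat.Agent.DS.N0 Fermat.Agent.DS.Hecke

theorem isIntGL_heckeMatrix {p : ℕ} (hp : p ≠ 0) (j : ℕ) : IsIntGL (heckeMatrix p j) := by
  refine ⟨?_, fun a b => ?_⟩
  · have := det_heckeMatrix_pos p j
    rwa [Matrix.GeneralLinearGroup.val_det_apply] at this
  · rw [val_heckeMatrix hp]
    fin_cases a <;> fin_cases b
    · exact ⟨1, by simp⟩
    · exact ⟨j, by simp⟩
    · exact ⟨0, by simp⟩
    · exact ⟨p, by simp⟩

theorem isIntGL_heckeDiagMatrix {p : ℕ} (hp : p ≠ 0) : IsIntGL (heckeDiagMatrix p) := by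
  refine ⟨?_, fun a b => ?_⟩
  · have := det_heckeDiagMatrix_pos p
    rwa [Matrix.GeneralLinearGroup.val_det_apply] at this
  · rw [val_heckeDiagMatrix hp]
    fin_cases a <;> fin_cases b
    · exact ⟨p, by simp⟩
    · exact ⟨0, by simp⟩
    · exact ⟨0, by simp⟩
    · exact ⟨1, by simp⟩

theorem isIntGL_rep1 {p : ℕ} (hp : p ≠ 0) (σ : SL(2, ℤ)) (x : OnePoint (ZMod p)) :
    IsIntGL (rep1 p σ x) := by
  induction x using OnePoint.rec with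
  | infty => exact (isIntGL_mapGL σ).mul (isIntGL_heckeDiagMatrix hp)
  | coe j => exact isIntGL_heckeMatrix hp _

variable {N : ℕ} [NeZero N]

/-- `T_ℓ` on `S_{1+m}(Γ₁(N))` is an integer-matrix-sum operator. -/
theorem isIntSumOp_heckeT1Lin (m : ℕ) {ℓ : ℕ} (hℓ : ℓ.Prime) (hℓN : ¬ ℓ ∣ N) :
    IsIntSumOp (Gamma1 N) m (heckeT1Lin ((1 : ℤ) + m) hℓ hℓN) := by
  have : NeZero ℓ := ⟨hℓ.ne_zero⟩
  refine ⟨OnePoint (ZMod ℓ), inferInstance, rep1 ℓ (primeRep hℓ hℓN),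
    fun x => isIntGL_rep1 hℓ.ne_zero _ x, fun f => ?_⟩
  rw [coe_heckeT1Lin, heckeT1_eq_sum]

/-- `⟨d⟩` on `S_{1+m}(Γ₁(N))` is an integer-matrix-sum operator. -/
theorem isIntSumOp_diamondLin (m : ℕ) (d : (ZMod N)ˣ) :
    IsIntSumOp (Gamma1 N) m (diamondLin ((1 : ℤ) + m) d) := by
  refine ⟨Unit, inferInstance, fun _ => mapGL ℝ (diamondRep d), fun _ => isIntGL_mapGL _,
    fun f => ?_⟩
  rw [coe_diamondLin]
  simp

/-- **S22 for `Γ₁(N)`**: the Hecke algebra `ℤ[T_ℓ, ⟨d⟩]` of `S_k(Γ₁(N))`, `k ≥ 2`, is a finitely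
generated `ℤ`-module. -/
theorem finite_heckeAlgebra1 (N : ℕ) [NeZero N] (k : ℤ) (hk : 2 ≤ k) (S : Set ℕ) :
    Module.Finite ℤ (heckeAlgebra1 N k S) := by
  obtain ⟨m, rfl⟩ : ∃ m : ℕ, k = (1 : ℤ) + m := ⟨(k - 1).toNat, by omega⟩
  refine finite_adjoin_intSumOp (Gamma1 N) m (by omega) (heckeGenerators1 N ((1 : ℤ) + m) S) ?_
  rintro T (⟨ℓ, hℓ, hℓN, -, rfl⟩ | ⟨d, rfl⟩)
  · exact isIntSumOp_heckeT1Lin m hℓ hℓN
  · exact isIntSumOp_diamondLin m d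

end Fermat.Agent.DS.ES
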