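/-
Bounded denominators on `Γ₁(N)` in weight `≥ 2`: the `q`-expansions of all cusp forms of weight
`1 + m ≥ 2` on `Γ₁(N)` lie in the `ℂ`-span of finitely many power series with INTEGER
coefficients.  Proof: the stabiliser `H` of the Eichler–Shimura period lattice is a finitely
generated `ℤ`-module containing `T_p`, `U_q`, `⟨d⟩`, and `a_n = a_1 ∘ T_n` for a suitable word
`T_n ∈ H` in these operators.
-/
import Fermat.Agent.DS.ES.HeckeAlgebra1Finite
import Fermat.Agent.DS.Int.Forms1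

set_option autoImplicit false

namespace Fermat.Agent.DS.ES

open UpperHalfPlane ModularForm Matrix.SpecialLinearGroup CongruenceSubgroup ModularFormClass
open scoped MatrixGroups ModularForm Manifold
open Fermat.Agent.S22_helper22

section generic

variable {Γ : Subgroup SL(2, ℤ)} [Γ.FiniteIndex] {m : ℕ}

/-- An operator given by a single slash with an element of `SL(2, ℤ)`. -/
theorem isIntSumOp_of_slash {T : Module.End ℂ (CFG Γ m)} (σ : SL(2, ℤ))
    (hT : ∀ f : CFG Γ m, (⇑(T f) : ℍ → ℂ) = (⇑f : ℍ → ℂ) ∣[(1 : ℤ) + m] σ) :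
    IsIntSumOp Γ m T := by
  refine ⟨Unit, inferInstance, fun _ => mapGL ℝ σ, fun _ => isIntGL_mapGL _, fun f => ?_⟩
  rw [hT]
  simp [SL_slash_mapGL]

/-- An operator given by the function-level `heckeU`. -/
theorem isIntSumOp_of_heckeU {T : Module.End ℂ (CFG Γ m)} {q : ℕ} (hq : q ≠ 0)
    (hT : ∀ f : CFG Γ m, (⇑(T f) : ℍ → ℂ) = heckeU ((1 : ℤ) + m) q ⇑f) :
    IsIntSumOp Γ m T := by
  refine ⟨Fin q, inferInstance, fun j => heckeMatrix q j, fun j => isIntGL_heckeMatrix hq _,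
    fun f => ?_⟩
  rw [hT, heckeU_def, Finset.sum_range]

/-- An operator of the shape `U_p f + (f ∣ σ) ∣ diag(p, 1)`. -/
theorem isIntSumOp_of_heckeU_add {T : Module.End ℂ (CFG Γ m)} {p : ℕ} (hp : p ≠ 0)
    (σ : SL(2, ℤ))
    (hT : ∀ f : CFG Γ m, (⇑(T f) : ℍ → ℂ) =
      heckeU ((1 : ℤ) + m) p ⇑f + ((⇑f : ℍ → ℂ) ∣[(1 : ℤ) + m] σ) ∣[(1 : ℤ) + m] heckeDiagMatrix p) :
    IsIntSumOp Γ m T := by
  refine ⟨Option (Fin p), inferInstance,
    fun o => o.elim (mapGL ℝ σ * heckeDiagMatrix p) (fun j => heckeMatrix p j), fun o => ?_,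
    fun f => ?_⟩
  · cases o with
    | none => exact (isIntGL_mapGL σ).mul (isIntGL_heckeDiagMatrix hp)
    | some j => exact isIntGL_heckeMatrix hp _
  · rw [hT, Fintype.sum_option, heckeU_def, Finset.sum_range, add_comm, SL_slash_mapGL,
      ← SlashAction.slash_mul]
    rfl

end generic

section Gamma1

open Fermat.Agent.DS.Int

variable {N : ℕ} [NeZero N] {m : ℕ}

/-- The `n`-th `q`-coefficient as a linear functional on `S_k(Γ₁(N))`. -/
noncomputable def coeffL (N : ℕ) [NeZero N] (k : ℤ) (n : ℕ) : CuspForm (Gamma1 N) k →ₗ[ℂ] ℂ where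
  toFun f := qCoeff f n
  map_add' f g := by
    change (qExpansion 1 (⇑(f + g) : ℍ → ℂ)).coeff n = _
    rw [FunLike.coe_add, ModularForm.qExpansion_add one_pos (one_mem_strictPeriods_Gamma1 N) f g,
      map_add]
    rfl
  map_smul' c f := by
    change (qExpansion 1 (⇑(c • f) : ℍ → ℂ)).coeff n = _
    rw [FunLike.coe_smul, ModularForm.qExpansion_smul one_pos (one_mem_strictPeriods_Gamma1 N) c f,
      PowerSeries.coeff_smul]
    rfl

@[simp] theorem coeffL_apply (k : ℤ) (n : ℕ) (f : CuspForm (Gamma1 N) k) :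
    coeffL N k n f = qCoeff f n := rfl

omit [NeZero N] in
theorem qCoeff_zero_eq (k : ℤ) (f : CuspForm (Gamma1 N) k) : qCoeff f 0 = 0 :=
  CuspFormClass.qExpansion_coeff_zero f one_pos (one_mem_strictPeriods_Gamma1 N)

/-- The stabiliser of the period lattice of `Γ₁(N)`. -/
noncomputable abbrev stab1 (N : ℕ) [NeZero N] (m : ℕ) :
    Subalgebra ℤ (Module.End ℂ (CFG (Gamma1 N) m)) :=
  stabilizerSubalgebra (periodLattice (Gamma1 N) m)

theorem dia_mem_stab1 (g : Gamma0 N) : (dia ((1 : ℤ) + m) g : Module.End ℂ _) ∈ stab1 N m :=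
  (isIntSumOp_of_slash g.1 fun _ => rfl).mem_stabilizer

theorem U1_mem_stab1 {q : ℕ} (hqN : q ∣ N) :
    (U1 ((1 : ℤ) + m) hqN : Module.End ℂ _) ∈ stab1 N m := by
  have hq0 : q ≠ 0 := fun h => NeZero.ne N (by rw [h] at hqN; exact zero_dvd_iff.mp hqN)
  exact (isIntSumOp_of_heckeU hq0 fun _ => rfl).mem_stabilizer

theorem T1_mem_stab1 {p : ℕ} (hp : p.Prime) (hpN : ¬ p ∣ N) (gp : Gamma0 N)
    (hgp : dN N gp.1 = (p : ZMod N)) :
    (T1 ((1 : ℤ) + m) hp hpN gp hgp : Module.End ℂ _) ∈ stab1 N m :=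
  (isIntSumOp_of_heckeU_add hp.ne_zero gp.1 fun _ => rfl).mem_stabilizer

/-- Every coefficient functional is `a_1 ∘ T` for some `T` in the stabiliser. -/
theorem exists_op_coeff (n : ℕ) :
    ∃ T ∈ stab1 N m, ∀ f : CFG (Gamma1 N) m, qCoeff f n = qCoeff (T f) 1 := by
  induction n using Nat.strong_induction_on with
  | _ n ih =>
  rcases Nat.lt_or_ge n 2 with hn | hn
  · interval_cases n
    · refine ⟨0, Subalgebra.zero_mem _, fun f => ?_⟩
      rw [qCoeff_zero_eq]
      exact ((coeffL N _ 1).map_zero).symm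
    · exact ⟨1, Subalgebra.one_mem _, fun f => rfl⟩
  · have hn1 : n ≠ 1 := by omega
    set p := n.minFac with hpdef
    have hp : p.Prime := Nat.minFac_prime hn1
    obtain ⟨n', hn'⟩ : p ∣ n := Nat.minFac_dvd n
    have hn'pos : 0 < n' := by
      rcases Nat.eq_zero_or_pos n' with h | h
      · rw [h, mul_zero] at hn'; omega
      · exact h
    have hn'lt : n' < n := by
      rw [hn']; exact lt_mul_of_one_lt_left hn'pos hp.one_lt
    obtain ⟨A, hA, hAf⟩ := ih n' hn'lt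
    have hnn : n = n' * p := by rw [hn', mul_comm]
    by_cases hpN : p ∣ N
    · refine ⟨A * U1 _ hpN, Subalgebra.mul_mem _ hA (U1_mem_stab1 hpN), fun f => ?_⟩
      rw [Module.End.mul_apply, ← hAf, qCoeff_U1, ← hnn]
    · obtain ⟨gp, hgp⟩ := exists_gp (N := N) ((Nat.Prime.coprime_iff_not_dvd hp).mpr hpN)
      have hT := qCoeff_T1 (k := (1 : ℤ) + m) hp hpN gp hgp
      by_cases hpn' : p ∣ n'
      · have hlt2 : n' / p < n := (Nat.div_le_self _ _).trans_lt hn'lt
        obtain ⟨B, hB, hBf⟩ := ih (n' / p) hlt2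
        refine ⟨A * T1 _ hp hpN gp hgp - ((p ^ m : ℕ) : ℤ) • (B * dia _ gp),
          Subalgebra.sub_mem _ (Subalgebra.mul_mem _ hA (T1_mem_stab1 hp hpN gp hgp))
            (Subalgebra.zsmul_mem _ (Subalgebra.mul_mem _ hB (dia_mem_stab1 gp)) _), fun f => ?_⟩
        have h1 := hT f n'
        rw [if_pos hpn', ← hnn] at h1
        have e : ((p : ℂ)) ^ ((1 : ℤ) + m - 1) = ((p ^ m : ℕ) : ℂ) := by
          rw [show (1 : ℤ) + m - 1 = (m : ℤ) by ring, zpow_natCast]; push_cast; rfl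
        rw [e] at h1
        have key : qCoeff (⇑((A * T1 _ hp hpN gp hgp - ((p ^ m : ℕ) : ℤ) • (B * dia _ gp) :
            Module.End ℂ (CFG (Gamma1 N) m)) f)) 1 =
            qCoeff (⇑(A (T1 _ hp hpN gp hgp f))) 1 -
              ((p ^ m : ℕ) : ℂ) * qCoeff (⇑(B (dia _ gp f))) 1 := by
          have e0 : ((A * T1 _ hp hpN gp hgp - ((p ^ m : ℕ) : ℤ) • (B * dia _ gp) :
              Module.End ℂ (CFG (Gamma1 N) m)) f) =
              A (T1 _ hp hpN gp hgp f) - ((p ^ m : ℕ) : ℤ) • B (dia _ gp f) := rfl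
          have h2 := map_sub (coeffL N ((1 : ℤ) + m) 1) (A (T1 _ hp hpN gp hgp f))
            (((p ^ m : ℕ) : ℤ) • B (dia _ gp f))
          rw [map_zsmul, zsmul_eq_mul] at h2
          rw [e0]
          push_cast at h2 ⊢
          exact h2
        rw [key, ← hAf, ← hBf, h1]
        ring
      · refine ⟨A * T1 _ hp hpN gp hgp,
          Subalgebra.mul_mem _ hA (T1_mem_stab1 hp hpN gp hgp), fun f => ?_⟩
        have h1 := hT f n'
        rw [if_neg hpn', add_zero, ← hnn] at h1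
        rw [Module.End.mul_apply, ← hAf, h1]

/-- **Bounded denominators / integral span** for `S_{1+m}(Γ₁(N))`, `m ≥ 1`. -/
theorem exists_int_span_Gamma1 (N : ℕ) [NeZero N] (m : ℕ) (hm : 1 ≤ m) :
    ∃ (r : ℕ) (ψ : Fin r → PowerSeries ℤ), ∀ f : CuspForm (Gamma1 N) ((1 : ℤ) + m),
      ∃ y : Fin r → ℂ, qExpansion 1 f = ∑ i, y i • (ψ i).map (Int.castRingHom ℂ) := by
  have hfin : Module.Finite ℤ (stab1 N m) := finite_stabilizer_periodLattice (Gamma1 N) m hm
  obtain ⟨r, s, hs⟩ := Module.Finite.exists_fin (R := ℤ) (M := stab1 N m)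
  choose T hT hTf using fun n : ℕ => exists_op_coeff (N := N) (m := m) n
  have hmem : ∀ n, (⟨T n, hT n⟩ : stab1 N m) ∈ Submodule.span ℤ (Set.range s) := fun n => by
    rw [hs]; trivial
  choose z hz using fun n => (Submodule.mem_span_range_iff_exists_fun ℤ).mp (hmem n)
  refine ⟨r, fun i => PowerSeries.mk fun n => z n i, fun f =>
    ⟨fun i => qCoeff (⇑((s i).1 f)) 1, ?_⟩⟩
  ext n
  have h1 : (T n : Module.End ℂ (CFG (Gamma1 N) m)) = ∑ i, z n i • (s i).1 := by
    have := congrArg (fun x : stab1 N m => (x : Module.End ℂ (CFG (Gamma1 N) m))) (hz n)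
    simpa using this.symm
  have h2 : qCoeff f n = ∑ i, (z n i : ℂ) * qCoeff (⇑((s i).1 f)) 1 := by
    rw [hTf n f, h1, LinearMap.sum_apply, ← coeffL_apply, map_sum]
    refine Finset.sum_congr rfl fun i _ => ?_
    rw [LinearMap.smul_apply, map_zsmul, zsmul_eq_mul, coeffL_apply]
  change qCoeff f n = _
  rw [h2, map_sum]
  refine Finset.sum_congr rfl fun i _ => ?_
  rw [PowerSeries.coeff_smul, PowerSeries.coeff_map, PowerSeries.coeff_mk, smul_eq_mul, mul_comm]
  rfl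

/-- The same statement for an arbitrary integer weight `k ≥ 2` (helper8's shape (I1)). -/
theorem exists_int_span (N : ℕ) [NeZero N] (k : ℤ) (hk : 2 ≤ k) :
    ∃ (r : ℕ) (ψ : Fin r → PowerSeries ℤ), ∀ f : CuspForm (Gamma1 N) k,
      ∃ y : Fin r → ℂ, qExpansion 1 f = ∑ i, y i • (ψ i).map (Int.castRingHom ℂ) := by
  obtain ⟨m, rfl⟩ : ∃ m : ℕ, k = (1 : ℤ) + m := ⟨(k - 1).toNat, by omega⟩
  exact exists_int_span_Gamma1 N m (by omega)

/-- Consequence: the `q`-coefficients of a cusp form of weight `≥ 2` on `Γ₁(N)` lie in a finitely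
generated `ℤ`-submodule of `ℂ`. -/
theorem exists_fg_coeff (N : ℕ) [NeZero N] (k : ℤ) (hk : 2 ≤ k) (f : CuspForm (Gamma1 N) k) :
    ∃ L : Submodule ℤ ℂ, L.FG ∧ ∀ n, qCoeff f n ∈ L := by
  obtain ⟨r, ψ, h⟩ := exists_int_span N k hk
  obtain ⟨y, hy⟩ := h f
  refine ⟨Submodule.span ℤ (Set.range y), Submodule.fg_span (Set.finite_range y), fun n => ?_⟩
  change (qExpansion 1 f).coeff n ∈ _
  rw [hy, map_sum]
  refine Submodule.sum_mem _ fun i _ => ?_
  rw [PowerSeries.coeff_smul, PowerSeries.coeff_map, smul_eq_mul, mul_comm]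
  have : ((Int.castRingHom ℂ) ((ψ i).coeff n)) * y i = ((ψ i).coeff n) • y i := by
    rw [zsmul_eq_mul]; rfl
  rw [this]
  exact Submodule.smul_mem _ _ (Submodule.subset_span ⟨i, rfl⟩)

end Gamma1

end Fermat.Agent.DS.ES
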