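/-
GateInt, unconditional: for the data of the frozen statement S48 (a weight one cusp form on
`Γ₁(N)` with `a₁ = 1` satisfying the Hecke relations for a Dirichlet character `ε`), every `a_p`
(`p ∤ N`) is an algebraic integer, there are only finitely many conjugate eigensystems, and the
ring `ℤ[a_p]` is a finitely generated `ℤ`-module.
= helper8's `DS/Int/IntegralOfFG` fed with `exists_fg_coeff_weight_one` (Eichler–Shimura lattice
of `Γ₁(N)` in weight `5` + `E₄`).
-/
import Fermat.Agent.DS.ES.WeightOne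
import Fermat.Agent.DS.Int.IntegralOfFG

set_option autoImplicit false

namespace Fermat.Agent.DS.ES

open CongruenceSubgroup ModularFormClass
open scoped MatrixGroups
open Fermat.Agent.DS.Int

variable {N : ℕ} [NeZero N]

/-- **Integrality** of the Hecke eigenvalues of a weight one eigenform (frozen S48 spelling). -/
theorem isIntegral_qCoeff (ε : DirichletCharacter ℂ N) (f : CuspForm (Gamma1 N) 1)
    (hf₁ : qCoeff f 1 = 1)
    (hT : ∀ p : ℕ, p.Prime → ¬ p ∣ N → ∀ n : ℕ,
      qCoeff f (p * n) + ε (p : ZMod N) * (if p ∣ n then qCoeff f (n / p) else 0) =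
        qCoeff f p * qCoeff f n) :
    ∀ p : ℕ, p.Prime → ¬ p ∣ N → IsIntegral ℤ (qCoeff f p) :=
  isIntegral_qCoeff_of_fg ε f hf₁ hT (exists_fg_coeff_weight_one N f)

/-- **Finitely many conjugate eigensystems** (frozen S48 spelling). -/
theorem finite_eigensystems (ε : DirichletCharacter ℂ N) (f : CuspForm (Gamma1 N) 1)
    (hf₁ : qCoeff f 1 = 1)
    (hT : ∀ p : ℕ, p.Prime → ¬ p ∣ N → ∀ n : ℕ,
      qCoeff f (p * n) + ε (p : ZMod N) * (if p ∣ n then qCoeff f (n / p) else 0) =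
        qCoeff f p * qCoeff f n) :
    {a : ℕ → ℂ | ∃ σ : ℂ →+* ℂ, (∀ p : ℕ, p.Prime → ¬ p ∣ N → a p = σ (qCoeff f p)) ∧
      ∀ p : ℕ, ¬ (p.Prime ∧ ¬ p ∣ N) → a p = 0}.Finite :=
  finite_eigensystems_of_fg ε f hf₁ hT (exists_fg_coeff_weight_one N f)

/-- The ring generated by the eigenvalues is a finitely generated `ℤ`-module. -/
theorem adjoin_qCoeff_fg' (ε : DirichletCharacter ℂ N) (f : CuspForm (Gamma1 N) 1)
    (hf₁ : qCoeff f 1 = 1)
    (hT : ∀ p : ℕ, p.Prime → ¬ p ∣ N → ∀ n : ℕ,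
      qCoeff f (p * n) + ε (p : ZMod N) * (if p ∣ n then qCoeff f (n / p) else 0) =
        qCoeff f p * qCoeff f n) :
    (Subalgebra.toSubmodule (Algebra.adjoin ℤ
      ((fun n => qCoeff f n) '' {p : ℕ | p.Prime ∧ ¬ p ∣ N}))).FG :=
  adjoin_qCoeff_fg ε f hf₁ hT (exists_fg_coeff_weight_one N f)

end Fermat.Agent.DS.ES
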