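/-
Weight one: the `q`-coefficients of ANY cusp form of weight `1` on `Γ₁(N)` lie in a finitely
generated `ℤ`-submodule of `ℂ`.  Proof: `f · E₄ ∈ S₅(Γ₁(N))` has this property by the
Eichler–Shimura lattice (`exists_fg_coeff`), and `E₄ = 1 + 240 Σ σ₃(n) qⁿ` is a unit of `ℤ⟦q⟧`.
-/
import Fermat.Agent.DS.ES.CoeffSpan

set_option autoImplicit false

namespace Fermat.Agent.DS.ES

open UpperHalfPlane ModularForm Matrix.SpecialLinearGroup CongruenceSubgroup ModularFormClass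
open scoped MatrixGroups ModularForm Manifold ArithmeticFunction.sigma
open Fermat.Agent.DS.Int

/-- The integral `q`-expansion of `E₄`. -/
noncomputable def E4Z : PowerSeries ℤ :=
  PowerSeries.mk fun n => if n = 0 then 1 else 240 * (σ 3 n : ℤ)

theorem bernoulli_four_eq : bernoulli 4 = -1 / 30 := by
  rw [bernoulli_eq_bernoulli'_of_ne_one (by norm_num), bernoulli'_four]

theorem qExpansion_E4 : qExpansion 1 E₄ = E4Z.map (Int.castRingHom ℂ) := by
  ext n
  rw [EisensteinSeries.E_qExpansion_coeff _ ⟨2, rfl⟩, PowerSeries.coeff_map, E4Z,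
    PowerSeries.coeff_mk, bernoulli_four_eq]
  split_ifs with h
  · simp
  · push_cast
    norm_num

theorem isUnit_E4Z : IsUnit E4Z := by
  rw [PowerSeries.isUnit_iff_constantCoeff]
  simp [E4Z]

variable {N : ℕ} [NeZero N]

/-- `E₄` as a modular form on `Γ₁(N)`. -/
noncomputable def E4N (N : ℕ) : ModularForm (Gamma1 N) 4 where
  toFun := E₄
  slash_action_eq' γ hγ := E₄.slash_action_eq' γ (Subgroup.map_le_range _ _ hγ)
  holo' := E₄.holo'
  bdd_at_cusps' hc := E₄.bdd_at_cusps' (hc.mono (Subgroup.map_le_range _ _))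

theorem coe_E4N (N : ℕ) : (⇑(E4N N) : ℍ → ℂ) = ⇑E₄ := rfl

/-- `f · E₄` for a weight one cusp form `f`. -/
noncomputable def mulE4 (f : CuspForm (Gamma1 N) 1) : CuspForm (Gamma1 N) (1 + 4) :=
  f.mulModularForm (E4N N)

theorem qExpansion_mulE4 (f : CuspForm (Gamma1 N) 1) :
    qExpansion 1 (mulE4 f) = qExpansion 1 f * E4Z.map (Int.castRingHom ℂ) := by
  rw [← qExpansion_E4]
  exact ModularForm.qExpansion_mul_coe (Γ := (Gamma1 N : Subgroup (GL (Fin 2) ℝ))) one_pos
    (one_mem_strictPeriods_Gamma1 N) f (E4N N)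

/-- **Weight one**: the `q`-coefficients of a weight one cusp form on `Γ₁(N)` lie in a finitely
generated `ℤ`-submodule of `ℂ`. -/
theorem exists_fg_coeff_weight_one (N : ℕ) [NeZero N] (f : CuspForm (Gamma1 N) 1) :
    ∃ L : Submodule ℤ ℂ, L.FG ∧ ∀ n, qCoeff f n ∈ L := by
  obtain ⟨L, hL, hmem⟩ := exists_fg_coeff N (1 + 4) (by norm_num) (mulE4 f)
  refine ⟨L, hL, fun n => ?_⟩
  obtain ⟨u, hu⟩ := isUnit_E4Z
  have hinv : E4Z * (↑u⁻¹ : PowerSeries ℤ) = 1 := by rw [← hu]; exact Units.mul_inv u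
  have h1 : qExpansion 1 f =
      qExpansion 1 (mulE4 f) * (↑u⁻¹ : PowerSeries ℤ).map (Int.castRingHom ℂ) := by
    rw [qExpansion_mulE4, mul_assoc, ← map_mul, hinv, map_one, mul_one]
  change (qExpansion 1 f).coeff n ∈ L
  rw [h1, PowerSeries.coeff_mul]
  refine Submodule.sum_mem _ fun p _ => ?_
  rw [PowerSeries.coeff_map, mul_comm]
  have : ((Int.castRingHom ℂ) ((↑u⁻¹ : PowerSeries ℤ).coeff p.2)) *
      (qExpansion 1 (mulE4 f)).coeff p.1 =
      ((↑u⁻¹ : PowerSeries ℤ).coeff p.2) • (qExpansion 1 (mulE4 f)).coeff p.1 := by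
    rw [zsmul_eq_mul]; rfl
  rw [this]
  exact Submodule.smul_mem _ _ (hmem p.1)

end Fermat.Agent.DS.ES
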